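/-
S13 / (A′) true division polynomials, part 1: **Ward's theorem** — a sequence `W : ℤ → R` which is
odd, has `W 0 = 0`, `W 1 = 1` and satisfies the two doubling relations
`W (2m+1) = W (m+2) W m ^ 3 - W (m-1) W (m+1) ^ 3`,
`W (2m) W 2 = W (m-1)² W m W (m+2) - W (m-2) W m W (m+1)²`
satisfies **all** the elliptic-sequence relations
`W (p+q) W (p-q) = W (p+1) W (p-1) W q ^ 2 - W (q+1) W (q-1) W p ^ 2`
(provided `W 2` is a non-zero-divisor; this is removed for `normEDS` by working universally).

Proof: every relation at level `L` (largest index) is literally a `4 × 4` Pfaffian in the "atoms"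
`W (x+y) W (x-y)`, and (after the Riemann substitution) its six atoms are given by relations of lower
level or by the doubling relation of level `L`; the right-hand sides are of rank 2
(`f x * g y - f y * g x`), so the Plücker identity (`ring`) finishes.  Two families are carried
through the induction: the integer class `I` and the half-integer class `H`.
-/
import Mathlib

set_option autoImplicit false

namespace Fermat.Agent.S13Lib

namespace Ward

variable {R : Type*} [CommRing R] (W : ℤ → R)

/-- the rank two form of the integer class -/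
def DI (x y : ℤ) : R := W (x + 1) * W (x - 1) * W y ^ 2 - W (y + 1) * W (y - 1) * W x ^ 2

/-- the rank two form of the half-integer class -/
def DH (s t : ℤ) : R :=
  W (s + 2) * W (s - 1) * W (t + 1) * W t - W (s + 1) * W s * W (t + 2) * W (t - 1)

/-- the hypotheses on the sequence -/
structure Doubling : Prop where
  zero : W 0 = 0
  one : W 1 = 1
  neg : ∀ n, W (-n) = -W n
  odd : ∀ m, W (2 * m + 1) = W (m + 2) * W m ^ 3 - W (m - 1) * W (m + 1) ^ 3
  even : ∀ m, W (2 * m) * W 2 =
    W (m - 1) ^ 2 * W m * W (m + 2) - W (m - 2) * W m * W (m + 1) ^ 2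

/-- the statement of level `L` -/
def Claim (L : ℤ) : Prop :=
  (∀ p q : ℤ, 0 ≤ q → q ≤ p → p + q ≤ L → W (p + q) * W (p - q) = DI W p q) ∧
  (∀ s t : ℤ, 0 ≤ t → t ≤ s → s + t + 1 ≤ L → W (s + t + 1) * W (s - t) * W 2 = DH W s t)

variable {W}

/-- an instance of the integer class with all indices named -/
lemma Claim.instI {L : ℤ} (h : Claim W L) (x y a b c d e f : ℤ) (ha : a = x + y) (hb : b = x - y)
    (hc : c = x + 1) (hd : d = x - 1) (he : e = y + 1) (hf : f = y - 1)
    (hy : 0 ≤ y) (hxy : y ≤ x) (hL : x + y ≤ L) :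
    W a * W b = W c * W d * W y ^ 2 - W e * W f * W x ^ 2 := by
  subst ha hb hc hd he hf
  exact h.1 x y hy hxy hL

/-- an instance of the half-integer class with all indices named -/
lemma Claim.instH {L : ℤ} (h : Claim W L) (s t a b c d e f g k : ℤ) (ha : a = s + t + 1)
    (hb : b = s - t) (hc : c = s + 2) (hd : d = s - 1) (he : e = t + 1) (hf : f = s + 1)
    (hg : g = t + 2) (hk : k = t - 1)
    (ht : 0 ≤ t) (hst : t ≤ s) (hL : s + t + 1 ≤ L) :
    W a * W b * W 2 = W c * W d * W e * W t - W f * W s * W g * W k := by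
  subst ha hb hc hd he hf hg hk
  exact h.2 s t ht hst hL

lemma Doubling.neg_one (hW : Doubling W) : W (-1) = -1 := by rw [hW.neg, hW.one]

/-- the odd doubling relation with named indices -/
lemma Doubling.odd' (hW : Doubling W) (m a c d e : ℤ) (ha : a = 2 * m + 1) (hc : c = m + 2)
    (hd : d = m - 1) (he : e = m + 1) : W a = W c * W m ^ 3 - W d * W e ^ 3 := by
  subst ha hc hd he
  exact hW.odd m

/-- the even doubling relation with named indices -/
lemma Doubling.even' (hW : Doubling W) (m a c d e f : ℤ) (ha : a = 2 * m) (hc : c = m - 1)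
    (hd : d = m + 2) (he : e = m - 2) (hf : f = m + 1) :
    W a * W 2 = W c ^ 2 * W m * W d - W e * W m * W f ^ 2 := by
  subst ha hc hd he hf
  exact hW.even m

/-- integer class, odd level `2n+1`, `p = n+j+1`, `q = n-j`. -/
lemma stepI_odd (hW : Doubling W) (p q n j : ℤ) (hp : p = n + j + 1) (hq : q = n - j)
    (hj : 0 ≤ j) (hq2 : 2 ≤ q) (h : Claim W (2 * n)) :
    W (p + q) * W (p - q) = DI W p q := by
  have e1 := hW.odd' n (p + q) (n + 2) (n - 1) (n + 1) (by omega) rfl rfl rfl
  have e2 := hW.odd' j (p - q) (j + 2) (j - 1) (j + 1) (by omega) rfl rfl rfl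
  have e3 := h.instI (n + 1) (j + 1) (p + 1) q (n + 2) n (j + 2) j (by omega) (by omega)
    (by omega) (by omega) (by omega) (by omega) (by omega) (by omega) (by omega)
  have e4 := h.instI n j (p - 1) q (n + 1) (n - 1) (j + 1) (j - 1) (by omega) (by omega)
    (by omega) (by omega) (by omega) (by omega) (by omega) (by omega) (by omega)
  have e5 := h.instI (n + 1) j p (q + 1) (n + 2) n (j + 1) (j - 1) (by omega) (by omega)
    (by omega) (by omega) (by omega) (by omega) (by omega) (by omega) (by omega)
  have e6 := h.instI n (j + 1) p (q - 1) (n + 1) (n - 1) (j + 2) j (by omega) (by omega)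
    (by omega) (by omega) (by omega) (by omega) (by omega) (by omega) (by omega)
  unfold DI
  linear_combination (W (p - q)) * e1 + (W (n + 2) * W n ^ 3 - W (n - 1) * W (n + 1) ^ 3) * e2
    - (W (p - 1) * W q) * e3
    - (W (n + 2) * W n * W (j + 1) ^ 2 - W (j + 2) * W j * W (n + 1) ^ 2) * e4
    + (W p * W (q - 1)) * e5
    + (W (n + 2) * W n * W j ^ 2 - W (j + 1) * W (j - 1) * W (n + 1) ^ 2) * e6

/-- integer class, even level `2m`, `p = m+j`, `q = m-j` (times `W 2 ^ 2`). -/
lemma stepI_even (hW : Doubling W) (p q m j : ℤ) (hp : p = m + j) (hq : q = m - j)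
    (hj : 1 ≤ j) (hq2 : 2 ≤ q) (h : Claim W (2 * m - 1)) :
    W 2 ^ 2 * (W (p + q) * W (p - q)) = W 2 ^ 2 * DI W p q := by
  have e1 := hW.even' m (p + q) (m - 1) (m + 2) (m - 2) (m + 1) (by omega) rfl rfl rfl rfl
  have e2 := hW.even' j (p - q) (j - 1) (j + 2) (j - 2) (j + 1) (by omega) rfl rfl rfl rfl
  have e3 := h.instH m j (p + 1) q (m + 2) (m - 1) (j + 1) (m + 1) (j + 2) (j - 1)
    (by omega) (by omega) (by omega) (by omega) (by omega) (by omega) (by omega) (by omega)
    (by omega) (by omega) (by omega)
  have e4 := h.instH (m - 1) (j - 1) (p - 1) q (m + 1) (m - 2) j m (j + 1) (j - 2)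
    (by omega) (by omega) (by omega) (by omega) (by omega) (by omega) (by omega) (by omega)
    (by omega) (by omega) (by omega)
  have e5 := h.instH m (j - 1) p (q + 1) (m + 2) (m - 1) j (m + 1) (j + 1) (j - 2)
    (by omega) (by omega) (by omega) (by omega) (by omega) (by omega) (by omega) (by omega)
    (by omega) (by omega) (by omega)
  have e6 := h.instH (m - 1) j p (q - 1) (m + 1) (m - 2) (j + 1) m (j + 2) (j - 1)
    (by omega) (by omega) (by omega) (by omega) (by omega) (by omega) (by omega) (by omega)
    (by omega) (by omega) (by omega)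
  unfold DI
  linear_combination (W (p - q) * W 2) * e1
    + (W (m - 1) ^ 2 * W m * W (m + 2) - W (m - 2) * W m * W (m + 1) ^ 2) * e2
    - (W (p - 1) * W q * W 2) * e3
    - (W (m + 2) * W (m - 1) * W (j + 1) * W j - W (m + 1) * W m * W (j + 2) * W (j - 1)) * e4
    + (W p * W (q - 1) * W 2) * e5
    + (W (m + 2) * W (m - 1) * W j * W (j - 1) - W (m + 1) * W m * W (j + 1) * W (j - 2)) * e6

/-- half-integer class, even level `2m`, `s = m+i`, `t = m-i-1`. -/
lemma stepH_even (hW : Doubling W) (s t m i : ℤ) (hs : s = m + i) (ht : t = m - i - 1)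
    (hi : 0 ≤ i) (ht2 : 2 ≤ t) (h : Claim W (2 * m - 1)) :
    W (s + t + 1) * W (s - t) * W 2 = DH W s t := by
  have e1 := hW.even' m (s + t + 1) (m - 1) (m + 2) (m - 2) (m + 1) (by omega) rfl rfl rfl rfl
  have e2 := hW.odd' i (s - t) (i + 2) (i - 1) (i + 1) (by omega) rfl rfl rfl
  have e3 := h.instI (m + 1) (i + 1) (s + 2) (t + 1) (m + 2) m (i + 2) i (by omega) (by omega)
    (by omega) (by omega) (by omega) (by omega) (by omega) (by omega) (by omega)
  have e4 := h.instI (m - 1) i (s - 1) t m (m - 2) (i + 1) (i - 1) (by omega) (by omega)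
    (by omega) (by omega) (by omega) (by omega) (by omega) (by omega) (by omega)
  have e5 := h.instI (m + 1) i (s + 1) (t + 2) (m + 2) m (i + 1) (i - 1) (by omega) (by omega)
    (by omega) (by omega) (by omega) (by omega) (by omega) (by omega) (by omega)
  have e6 := h.instI (m - 1) (i + 1) s (t - 1) m (m - 2) (i + 2) i (by omega) (by omega)
    (by omega) (by omega) (by omega) (by omega) (by omega) (by omega) (by omega)
  unfold DH
  linear_combination (W (s - t)) * e1
    + (W (m - 1) ^ 2 * W m * W (m + 2) - W (m - 2) * W m * W (m + 1) ^ 2) * e2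
    - (W (s - 1) * W t) * e3
    - (W (m + 2) * W m * W (i + 1) ^ 2 - W (i + 2) * W i * W (m + 1) ^ 2) * e4
    + (W s * W (t - 1)) * e5
    + (W (m + 2) * W m * W i ^ 2 - W (i + 1) * W (i - 1) * W (m + 1) ^ 2) * e6

/-- half-integer class, odd level `2n+1`, `s = n+i`, `t = n-i`. -/
lemma stepH_odd (hW : Doubling W) (s t n i : ℤ) (hs : s = n + i) (ht : t = n - i)
    (hi : 1 ≤ i) (ht2 : 2 ≤ t) (h : Claim W (2 * n)) :
    W (s + t + 1) * W (s - t) * W 2 = DH W s t := by
  have e1 := hW.odd' n (s + t + 1) (n + 2) (n - 1) (n + 1) (by omega) rfl rfl rfl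
  have e2 := hW.even' i (s - t) (i - 1) (i + 2) (i - 2) (i + 1) (by omega) rfl rfl rfl rfl
  have e3 := h.instI (n + 1) (i + 1) (s + 2) t (n + 2) n (i + 2) i (by omega) (by omega)
    (by omega) (by omega) (by omega) (by omega) (by omega) (by omega) (by omega)
  have e4 := h.instI n (i - 1) (s - 1) (t + 1) (n + 1) (n - 1) i (i - 2) (by omega) (by omega)
    (by omega) (by omega) (by omega) (by omega) (by omega) (by omega) (by omega)
  have e5 := h.instI (n + 1) (i - 1) s (t + 2) (n + 2) n i (i - 2) (by omega) (by omega)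
    (by omega) (by omega) (by omega) (by omega) (by omega) (by omega) (by omega)
  have e6 := h.instI n (i + 1) (s + 1) (t - 1) (n + 1) (n - 1) (i + 2) i (by omega) (by omega)
    (by omega) (by omega) (by omega) (by omega) (by omega) (by omega) (by omega)
  unfold DH
  linear_combination (W (s - t) * W 2) * e1
    + (W (n + 2) * W n ^ 3 - W (n - 1) * W (n + 1) ^ 3) * e2
    - (W (s - 1) * W (t + 1)) * e3
    - (W (n + 2) * W n * W (i + 1) ^ 2 - W (i + 2) * W i * W (n + 1) ^ 2) * e4
    + (W (s + 1) * W (t - 1)) * e5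
    + (W (n + 2) * W n * W (i - 1) ^ 2 - W i * W (i - 2) * W (n + 1) ^ 2) * e6

/-- **Ward's theorem**, inductive form. -/
theorem claim_all (hW : Doubling W) (hreg : ∀ x : R, W 2 * x = 0 → x = 0) (L : ℕ) :
    Claim W (L : ℤ) := by
  induction L with
  | zero =>
    refine ⟨fun p q h0 hqp hL => ?_, fun s t h0 hts hL => ?_⟩
    · have hq : q = 0 := by omega
      have hp : p = 0 := by omega
      subst hq hp
      simp [DI, hW.zero]
    · omega
  | succ L ih =>
    have hreg2 : ∀ x y : R, W 2 ^ 2 * x = W 2 ^ 2 * y → x = y := by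
      intro x y hxy
      have h1 : W 2 * (W 2 * (x - y)) = 0 := by linear_combination hxy
      exact sub_eq_zero.mp (hreg _ (hreg _ h1))
    refine ⟨fun p q h0 hqp hL => ?_, fun s t h0 hts hL => ?_⟩
    · by_cases hlt : p + q ≤ (L : ℤ)
      · exact ih.1 p q h0 hqp hlt
      have hsum : p + q = (L : ℤ) + 1 := by push_cast at hL; omega
      rcases (by omega : q = 0 ∨ q = 1 ∨ 2 ≤ q) with rfl | rfl | hq2
      · simp only [add_zero, sub_zero, DI, hW.zero, zero_add, zero_sub, hW.neg_one, hW.one]
        ring
      · simp only [DI, hW.one, sub_self, hW.zero]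
        norm_num
      · rcases Int.even_or_odd' (p + q) with ⟨k, hk | hk⟩
        · -- even level
          obtain ⟨j, hj⟩ : ∃ j, j = k - q := ⟨_, rfl⟩
          rcases (by omega : j = 0 ∨ 1 ≤ j) with hj0 | hj1
          · have hpq : p = q := by omega
            subst hpq
            simp [DI, hW.zero]
          · apply hreg2
            refine stepI_even hW p q k j (by omega) (by omega) hj1 hq2 ?_
            have : (2 * k - 1 : ℤ) = L := by omega
            rw [this]
            exact ih
        · -- odd level
          obtain ⟨j, hj⟩ : ∃ j, j = k - q := ⟨_, rfl⟩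
          refine stepI_odd hW p q k j (by omega) (by omega) (by omega) hq2 ?_
          have : (2 * k : ℤ) = L := by omega
          rw [this]
          exact ih
    · by_cases hlt : s + t + 1 ≤ (L : ℤ)
      · exact ih.2 s t h0 hts hlt
      have hsum : s + t + 1 = (L : ℤ) + 1 := by push_cast at hL; omega
      rcases (by omega : t = 0 ∨ t = 1 ∨ 2 ≤ t) with rfl | rfl | ht2
      · simp only [add_zero, sub_zero, DH, hW.zero, zero_add, zero_sub, hW.neg_one, hW.one]
        ring
      · simp only [DH, hW.one, sub_self, hW.zero]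
        ring_nf
      · rcases Int.even_or_odd' (s + t + 1) with ⟨k, hk | hk⟩
        · -- even level
          obtain ⟨i, hi⟩ : ∃ i, i = k - t - 1 := ⟨_, rfl⟩
          refine stepH_even hW s t k i (by omega) (by omega) (by omega) ht2 ?_
          have : (2 * k - 1 : ℤ) = L := by omega
          rw [this]
          exact ih
        · -- odd level
          obtain ⟨i, hi⟩ : ∃ i, i = k - t := ⟨_, rfl⟩
          rcases (by omega : i = 0 ∨ 1 ≤ i) with hi0 | hi1
          · have hst : s = t := by omega
            subst hst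
            simp [DH, hW.zero]
            ring
          · refine stepH_odd hW s t k i (by omega) (by omega) hi1 ht2 ?_
            have : (2 * k : ℤ) = L := by omega
            rw [this]
            exact ih

lemma DI_neg_right (hW : Doubling W) (p q : ℤ) : DI W p (-q) = DI W p q := by
  unfold DI
  have h1 : W (-q + 1) = -W (q - 1) := by rw [← hW.neg]; congr 1; ring
  have h2 : W (-q - 1) = -W (q + 1) := by rw [← hW.neg]; congr 1; ring
  rw [h1, h2, hW.neg]
  ring

lemma DI_neg_left (hW : Doubling W) (p q : ℤ) : DI W (-p) q = DI W p q := by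
  unfold DI
  have h1 : W (-p + 1) = -W (p - 1) := by rw [← hW.neg]; congr 1; ring
  have h2 : W (-p - 1) = -W (p + 1) := by rw [← hW.neg]; congr 1; ring
  rw [h1, h2, hW.neg]
  ring

lemma DI_swap (p q : ℤ) : DI W q p = -DI W p q := by
  unfold DI
  ring

/-- **Ward's theorem** for a sequence satisfying the doubling relations, with `W 2` regular. -/
theorem ward (hW : Doubling W) (hreg : ∀ x : R, W 2 * x = 0 → x = 0) (p q : ℤ) :
    W (p + q) * W (p - q) = DI W p q := by
  -- nonnegative ordered case
  have key : ∀ p q : ℤ, 0 ≤ q → q ≤ p → W (p + q) * W (p - q) = DI W p q := by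
    intro p q h0 hqp
    have h := claim_all hW hreg (p + q).toNat
    exact h.1 p q h0 hqp (by rw [Int.toNat_of_nonneg (by omega)])
  -- nonnegative case
  have key2 : ∀ p q : ℤ, 0 ≤ p → 0 ≤ q → W (p + q) * W (p - q) = DI W p q := by
    intro p q hp hq
    rcases le_total q p with h | h
    · exact key p q hq h
    · have := key q p hp h
      have e : W (p - q) = -W (q - p) := by rw [← hW.neg]; congr 1; ring
      rw [e, DI_swap (W := W) q p, add_comm p q]
      linear_combination -this
  rcases le_total 0 p with hp | hp <;> rcases le_total 0 q with hq | hq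
  · exact key2 p q hp hq
  · have := key2 p (-q) hp (by omega)
    rw [DI_neg_right hW] at this
    rw [← this]
    have e1 : p + -q = p - q := by ring
    have e2 : p - -q = p + q := by ring
    rw [e1, e2]
    ring
  · have := key2 (-p) q (by omega) hq
    rw [DI_neg_left hW] at this
    rw [← this]
    have e1 : W (-p + q) = -W (p - q) := by rw [← hW.neg]; congr 1; ring
    have e2 : W (-p - q) = -W (p + q) := by rw [← hW.neg]; congr 1; ring
    rw [e1, e2]
    ring
  · have := key2 (-p) (-q) (by omega) (by omega)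
    rw [DI_neg_left hW, DI_neg_right hW] at this
    rw [← this]
    have e1 : W (-p + -q) = -W (p + q) := by rw [← hW.neg]; congr 1; ring
    have e2 : W (-p - -q) = -W (p - q) := by rw [← hW.neg]; congr 1; ring
    rw [e1, e2]
    ring


end Ward

end Fermat.Agent.S13Lib
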