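/-
S13 / (A′) true division polynomials, part 2: Ward's theorem for Mathlib's `normEDS`
(`normEDS b c d` is an elliptic sequence, over any commutative ring), Somos-4, the identity sequence
`normEDS 2 3 2 n = n`, non-vanishing in the universal ring, and the **sum identity**
`W (n+2) W (n-1)² + W (n-2) W (n+1)² + b² W n ³ = κ W (n+1) W n W (n-1)` for
`W = normEDS b c (κ c - b⁴)` (the division-polynomial form of the `x`-only addition formula).
-/
import Fermat.Agent.Lib.S13.DivPoly.Ward

set_option autoImplicit false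

namespace Fermat.Agent.S13Lib

open Ward

variable {R : Type*} [CommRing R]

/-- `normEDS` satisfies the doubling hypotheses. -/
lemma doubling_normEDS (b c d : R) : Doubling (normEDS b c d) where
  zero := normEDS_zero b c d
  one := normEDS_one b c d
  neg := normEDS_neg b c d
  odd := normEDS_odd b c d
  even m := by rw [normEDS_two]; exact normEDS_even b c d m

/-- **Ward's theorem for `normEDS`**: the canonical normalised sequence is an elliptic sequence. -/
theorem normEDS_ward (b c d : R) (p q : ℤ) :
    normEDS b c d (p + q) * normEDS b c d (p - q) =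
      normEDS b c d (p + 1) * normEDS b c d (p - 1) * normEDS b c d q ^ 2 -
        normEDS b c d (q + 1) * normEDS b c d (q - 1) * normEDS b c d p ^ 2 := by
  -- universal case
  have huniv := ward (doubling_normEDS (MvPolynomial.X 0 : MvPolynomial (Fin 3) ℤ)
    (MvPolynomial.X 1) (MvPolynomial.X 2)) (by
      intro x hx
      rw [normEDS_two] at hx
      exact (mul_eq_zero.mp hx).resolve_left (MvPolynomial.X_ne_zero 0)) p q
  let f : MvPolynomial (Fin 3) ℤ →+* R := MvPolynomial.eval₂Hom (Int.castRingHom R) ![b, c, d]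
  have hf0 : f (MvPolynomial.X 0) = b := by simp [f]
  have hf1 : f (MvPolynomial.X 1) = c := by simp [f]
  have hf2 : f (MvPolynomial.X 2) = d := by simp [f]
  have := congrArg f huniv
  simp only [DI, map_mul, map_sub, map_pow, map_normEDS, hf0, hf1, hf2] at this
  exact this

/-- Somos-4. -/
theorem normEDS_somos4 (b c d : R) (n : ℤ) :
    normEDS b c d (n + 2) * normEDS b c d (n - 2) =
      b ^ 2 * normEDS b c d (n + 1) * normEDS b c d (n - 1) - c * normEDS b c d n ^ 2 := by
  have := normEDS_ward b c d n 2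
  rw [normEDS_two, show (2 : ℤ) + 1 = 3 by norm_num, show (2 : ℤ) - 1 = 1 by norm_num,
    normEDS_three, normEDS_one] at this
  linear_combination this

/-- the identity sequence is `normEDS 2 3 2`. -/
theorem normEDS_two_three_two (n : ℤ) : normEDS (2 : ℤ) 3 2 n = n := by
  have key : ∀ N : ℕ, ∀ n : ℤ, 0 ≤ n → n ≤ N → normEDS (2 : ℤ) 3 2 n = n := by
    intro N
    induction N with
    | zero =>
      intro n h0 hn
      have : n = 0 := by push_cast at hn; omega
      subst this
      simp
    | succ N ih =>
      intro n h0 hn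
      by_cases hlt : n ≤ (N : ℤ)
      · exact ih n h0 hlt
      have hnN : n = (N : ℤ) + 1 := by push_cast at hn; omega
      rcases (by omega : n = 1 ∨ n = 2 ∨ n = 3 ∨ n = 4 ∨ 5 ≤ n) with rfl | rfl | rfl | rfl | h5
      · simp
      · simp
      · simp
      · simp
      · rcases Int.even_or_odd' n with ⟨m, hm | hm⟩
        · have e := normEDS_even (2 : ℤ) 3 2 m
          rw [ih (m - 1) (by omega) (by omega), ih m (by omega) (by omega),
            ih (m + 2) (by omega) (by omega), ih (m - 2) (by omega) (by omega),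
            ih (m + 1) (by omega) (by omega)] at e
          rw [hm]
          have : normEDS (2 : ℤ) 3 2 (2 * m) * 2 = (2 * m) * 2 := by rw [e]; ring
          exact mul_right_cancel₀ (by norm_num) this
        · have e := normEDS_odd (2 : ℤ) 3 2 m
          rw [ih (m + 2) (by omega) (by omega), ih m (by omega) (by omega),
            ih (m - 1) (by omega) (by omega), ih (m + 1) (by omega) (by omega)] at e
          rw [hm, e]
          ring
  rcases le_total 0 n with h | h
  · exact key n.toNat n h (by rw [Int.toNat_of_nonneg h])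
  · have := key (-n).toNat (-n) (by omega) (by rw [Int.toNat_of_nonneg (by omega)])
    rw [normEDS_neg] at this
    linarith

end Fermat.Agent.S13Lib

namespace Fermat.Agent.S13Lib

open Ward

variable {R : Type*} [CommRing R]

/-- Somos-4 with named indices. -/
lemma normEDS_somos4' (b c d : R) (n i j k l : ℤ) (hi : i = n + 2) (hj : j = n - 2)
    (hk : k = n + 1) (hl : l = n - 1) :
    normEDS b c d i * normEDS b c d j =
      b ^ 2 * normEDS b c d k * normEDS b c d l - c * normEDS b c d n ^ 2 := by
  subst hi hj hk hl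
  exact normEDS_somos4 b c d n

/-- the conserved quantity of the Somos-4 recurrence (minus its constant value) -/
def somosB (b c κ : R) (n : ℤ) : R :=
  let W := normEDS b c (κ * c - b ^ 4)
  W (n - 1) ^ 2 * W (n + 2) ^ 2 + b ^ 2 * (W (n + 1) ^ 3 * W (n - 1) + W n ^ 3 * W (n + 2))
    - c * W n ^ 2 * W (n + 1) ^ 2 - κ * W (n - 1) * W n * W (n + 1) * W (n + 2)

/-- the defect of the sum identity -/
def sumDefect (b c κ : R) (n : ℤ) : R :=
  let W := normEDS b c (κ * c - b ^ 4)
  W (n + 2) * W (n - 1) ^ 2 + W (n - 2) * W (n + 1) ^ 2 + b ^ 2 * W n ^ 3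
    - κ * W (n + 1) * W n * W (n - 1)

lemma somosB_step (b c κ : R) (n : ℤ) :
    somosB b c κ (n + 1) * normEDS b c (κ * c - b ^ 4) (n - 1) =
      somosB b c κ n * normEDS b c (κ * c - b ^ 4) (n + 3) := by
  have e := normEDS_somos4' b c (κ * c - b ^ 4) (n + 1) (n + 3) (n - 1) (n + 2) n
    (by ring) (by ring) (by ring) (by ring)
  unfold somosB
  simp only []
  have h1 : n + 1 - 1 = n := by ring
  have h2 : n + 1 + 2 = n + 3 := by ring
  have h3 : n + 1 + 1 = n + 2 := by ring
  rw [h1, h2, h3]
  linear_combination (normEDS b c (κ * c - b ^ 4) n ^ 2 * normEDS b c (κ * c - b ^ 4) (n + 3) -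
    normEDS b c (κ * c - b ^ 4) (n - 1) * normEDS b c (κ * c - b ^ 4) (n + 2) ^ 2) * e

lemma somosB_sub (b c κ : R) (n : ℤ) :
    somosB b c κ n * normEDS b c (κ * c - b ^ 4) (n - 1) ^ 2 -
      somosB b c κ (n - 1) * normEDS b c (κ * c - b ^ 4) (n + 1) ^ 2 =
    (normEDS b c (κ * c - b ^ 4) (n + 2) * normEDS b c (κ * c - b ^ 4) (n - 1) ^ 2 -
      normEDS b c (κ * c - b ^ 4) (n - 2) * normEDS b c (κ * c - b ^ 4) (n + 1) ^ 2) *
      sumDefect b c κ n := by
  unfold somosB sumDefect
  simp only []
  have h1 : n - 1 - 1 = n - 2 := by ring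
  have h2 : n - 1 + 2 = n + 1 := by ring
  have h3 : n - 1 + 1 = n := by ring
  rw [h1, h2, h3]
  ring

end Fermat.Agent.S13Lib

namespace Fermat.Agent.S13Lib

open Ward

section universal

open MvPolynomial

/-- the universal ring `ℤ[b, c, κ]` -/
local notation "RU" => MvPolynomial (Fin 3) ℤ

private noncomputable def bU : RU := X 0
private noncomputable def cU : RU := X 1
private noncomputable def kU : RU := X 2
private noncomputable def WU (n : ℤ) : RU := normEDS bU cU (kU * cU - bU ^ 4) n

private lemma WU_ne_zero {n : ℤ} (hn : n ≠ 0) : WU n ≠ 0 := by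
  intro h
  let g : RU →+* ℤ := MvPolynomial.eval₂Hom (Int.castRingHom ℤ) ![2, 3, 6]
  have hb : g bU = 2 := by simp [g, bU]
  have hc : g cU = 3 := by simp [g, cU]
  have hk : g kU = 6 := by simp [g, kU]
  have := congrArg g h
  rw [WU, map_normEDS, map_sub, map_mul, map_pow, hb, hc, hk, map_zero] at this
  norm_num at this
  rw [normEDS_two_three_two] at this
  exact hn this

private lemma somosB_U (n : ℕ) : somosB bU cU kU (n : ℤ) = 0 := by
  induction n using Nat.strong_induction_on with
  | _ n ih =>
    rcases n with _ | _ | _ | n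
    · simp [somosB]
    · simp [somosB]
      ring
    · simp only [somosB]
      norm_num
      ring
    · have h := somosB_step bU cU kU ((n : ℤ) + 2)
      have e : ((n + 1 + 1 + 1 : ℕ) : ℤ) = (n : ℤ) + 2 + 1 := by push_cast; ring
      rw [e]
      have e2 : somosB bU cU kU ((n : ℤ) + 2) = 0 := by
        have := ih (n + 2) (by omega)
        push_cast at this
        exact this
      rw [e2, zero_mul] at h
      have hne : normEDS bU cU (kU * cU - bU ^ 4) ((n : ℤ) + 2 - 1) ≠ 0 :=
        WU_ne_zero (n := (n : ℤ) + 2 - 1) (by omega)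
      exact (mul_eq_zero.mp h).resolve_right hne

private lemma sumDefect_U_nat (n : ℕ) : sumDefect bU cU kU (n : ℤ) = 0 := by
  rcases n with _ | n
  · simp [sumDefect]
  · have h := somosB_sub bU cU kU ((n : ℤ) + 1)
    have e1 : somosB bU cU kU ((n : ℤ) + 1) = 0 := by
      have := somosB_U (n + 1)
      push_cast at this
      exact this
    have e2 : somosB bU cU kU ((n : ℤ) + 1 - 1) = 0 := by
      have := somosB_U n
      rw [show (n : ℤ) + 1 - 1 = n by ring]
      exact this
    rw [e1, e2, zero_mul, zero_mul, sub_zero] at h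
    have hfac : (normEDS bU cU (kU * cU - bU ^ 4) ((n : ℤ) + 1 + 2) *
        normEDS bU cU (kU * cU - bU ^ 4) ((n : ℤ) + 1 - 1) ^ 2 -
        normEDS bU cU (kU * cU - bU ^ 4) ((n : ℤ) + 1 - 2) *
        normEDS bU cU (kU * cU - bU ^ 4) ((n : ℤ) + 1 + 1) ^ 2) ≠ 0 := by
      intro h0
      have hev := normEDS_even bU cU (kU * cU - bU ^ 4) ((n : ℤ) + 1)
      have : normEDS bU cU (kU * cU - bU ^ 4) (2 * ((n : ℤ) + 1)) * bU = 0 := by
        rw [hev]
        linear_combination (normEDS bU cU (kU * cU - bU ^ 4) ((n : ℤ) + 1)) * h0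
      rcases mul_eq_zero.mp this with h1 | h1
      · exact WU_ne_zero (n := 2 * ((n : ℤ) + 1)) (by omega) h1
      · exact MvPolynomial.X_ne_zero (0 : Fin 3) h1
    have e3 : ((n + 1 : ℕ) : ℤ) = (n : ℤ) + 1 := by push_cast; ring
    rw [e3]
    exact (mul_eq_zero.mp h.symm).resolve_left hfac

end universal

end Fermat.Agent.S13Lib

namespace Fermat.Agent.S13Lib

variable {R : Type*} [CommRing R]

lemma sumDefect_neg (b c κ : R) (n : ℤ) : sumDefect b c κ (-n) = -sumDefect b c κ n := by
  unfold sumDefect
  simp only []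
  have h1 : -n + 2 = -(n - 2) := by ring
  have h2 : -n - 1 = -(n + 1) := by ring
  have h3 : -n - 2 = -(n + 2) := by ring
  have h4 : -n + 1 = -(n - 1) := by ring
  rw [h1, h2, h3, h4]
  simp only [normEDS_neg]
  ring

/-- **The sum identity** (division-polynomial form of the `x`-only addition formula), over any
commutative ring: for `W = normEDS b c (κ c - b⁴)`,
`W (n+2) W (n-1)² + W (n-2) W (n+1)² + b² W n ³ = κ W (n+1) W n W (n-1)`. -/
theorem normEDS_sum_identity (b c κ : R) (n : ℤ) :
    normEDS b c (κ * c - b ^ 4) (n + 2) * normEDS b c (κ * c - b ^ 4) (n - 1) ^ 2 +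
      normEDS b c (κ * c - b ^ 4) (n - 2) * normEDS b c (κ * c - b ^ 4) (n + 1) ^ 2 +
      b ^ 2 * normEDS b c (κ * c - b ^ 4) n ^ 3 =
    κ * normEDS b c (κ * c - b ^ 4) (n + 1) * normEDS b c (κ * c - b ^ 4) n *
      normEDS b c (κ * c - b ^ 4) (n - 1) := by
  have hU : ∀ n : ℤ, sumDefect (MvPolynomial.X 0 : MvPolynomial (Fin 3) ℤ) (MvPolynomial.X 1)
      (MvPolynomial.X 2) n = 0 := by
    intro n
    rcases le_total 0 n with h | h
    · have := sumDefect_U_nat n.toNat
      rwa [Int.toNat_of_nonneg h] at this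
    · have := sumDefect_U_nat (-n).toNat
      rw [Int.toNat_of_nonneg (by omega), sumDefect_neg] at this
      exact neg_eq_zero.mp this
  let f : MvPolynomial (Fin 3) ℤ →+* R := MvPolynomial.eval₂Hom (Int.castRingHom R) ![b, c, κ]
  have hf0 : f (MvPolynomial.X 0) = b := by simp [f]
  have hf1 : f (MvPolynomial.X 1) = c := by simp [f]
  have hf2 : f (MvPolynomial.X 2) = κ := by simp [f]
  have := congrArg f (hU n)
  simp only [sumDefect, map_mul, map_sub, map_add, map_pow, map_normEDS, hf0, hf1, hf2,
    map_zero] at this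
  linear_combination this

end Fermat.Agent.S13Lib
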