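/-
S13, package (A′), part 2: the multiplication theorem for Mathlib's division polynomials `ψ_n`
on the curves `y² = x³ + a x² + b x`.

For an affine nonsingular point `P = (x, y)` and `n ≥ 1`, with `w_k := ψ_k(x, y)`:
* `n • P = 0 ↔ w_n = 0`;
* if `n • P = (x', y')` then `(x - x') w_n² = w_{n+1} w_{n-1}`.
-/
import Fermat.Agent.Lib.S13.DivPoly.NormEDS
import Fermat.Agent.Lib.S05.Legendre

set_option autoImplicit false

open WeierstrassCurve WeierstrassCurve.Affine Polynomial

namespace Fermat.Agent.S13Lib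

open Fermat.Agent.S05Lib

variable {K : Type*} [Field K] {W : WeierstrassCurve K} {a b : K}

/-- the value of Mathlib's `n`-th division polynomial `ψ_n` at `(x, y)` -/
noncomputable def psiVal (W : WeierstrassCurve K) (x y : K) (n : ℤ) : K :=
  (W.ψ n).evalEval x y

lemma psiVal_eq_normEDS (W : WeierstrassCurve K) (x y : K) (n : ℤ) :
    psiVal W x y n =
      normEDS (W.ψ₂.evalEval x y) (W.Ψ₃.eval x) (W.preΨ₄.eval x) n := by
  unfold psiVal WeierstrassCurve.ψ
  rw [← coe_evalEvalRingHom, map_normEDS]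
  simp only [coe_evalEvalRingHom, evalEval_C]

/-- `Ψ₃(x)` for the curve `y² = x³ + a x² + b x` -/
def legC (a b x : K) : K := 3 * x ^ 4 + 4 * a * x ^ 3 + 6 * b * x ^ 2 - b ^ 2

/-- `6x² + b₂ x + b₄` for the curve `y² = x³ + a x² + b x` -/
def legKap (a b x : K) : K := 6 * x ^ 2 + 4 * a * x + 2 * b

lemma isLeg_b₂_eq (hW : IsLeg W a b) : W.b₂ = 4 * a := by
  simp [WeierstrassCurve.b₂, hW.a₁, hW.a₂]

lemma isLeg_b₄_eq (hW : IsLeg W a b) : W.b₄ = 2 * b := by
  simp [WeierstrassCurve.b₄, hW.a₁, hW.a₃, hW.a₄]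

lemma isLeg_b₆_eq (hW : IsLeg W a b) : W.b₆ = 0 := by
  simp [WeierstrassCurve.b₆, hW.a₃, hW.a₆]

lemma isLeg_b₈_eq (hW : IsLeg W a b) : W.b₈ = -b ^ 2 := by
  simp [WeierstrassCurve.b₈, hW.a₁, hW.a₃, hW.a₄, hW.a₆]

lemma isLeg_ψ₂_evalEval (hW : IsLeg W a b) (x y : K) : W.ψ₂.evalEval x y = 2 * y := by
  rw [WeierstrassCurve.ψ₂, Affine.evalEval_polynomialY]
  simp [hW.a₁, hW.a₃]

lemma isLeg_Ψ₂Sq_eval (hW : IsLeg W a b) (x : K) :
    W.Ψ₂Sq.eval x = 4 * (x ^ 3 + a * x ^ 2 + b * x) := by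
  rw [WeierstrassCurve.Ψ₂Sq, (isLeg_b₂_eq hW), (isLeg_b₄_eq hW), (isLeg_b₆_eq hW)]
  simp
  ring

lemma isLeg_Ψ₃_eval (hW : IsLeg W a b) (x : K) : W.Ψ₃.eval x = legC a b x := by
  rw [WeierstrassCurve.Ψ₃, (isLeg_b₂_eq hW), (isLeg_b₄_eq hW), (isLeg_b₆_eq hW), (isLeg_b₈_eq hW), legC]
  simp
  ring

lemma isLeg_preΨ₄_eval (hW : IsLeg W a b) (x : K) :
    W.preΨ₄.eval x = 2 * x ^ 6 + 4 * a * x ^ 5 + 10 * b * x ^ 4 - 10 * b ^ 2 * x ^ 2 -
      4 * a * b ^ 2 * x - 2 * b ^ 3 := by
  rw [WeierstrassCurve.preΨ₄, (isLeg_b₂_eq hW), (isLeg_b₄_eq hW), (isLeg_b₆_eq hW), (isLeg_b₈_eq hW)]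
  simp
  ring

/-- on the curve, `preΨ₄(x) = κ Ψ₃(x) - ψ₂(x,y)⁴` -/
lemma isLeg_preΨ₄_eval_eq (hW : IsLeg W a b) {x y : K} (heq : y ^ 2 = x ^ 3 + a * x ^ 2 + b * x) :
    W.preΨ₄.eval x = legKap a b x * legC a b x - (2 * y) ^ 4 := by
  rw [(isLeg_preΨ₄_eval hW), legKap, legC]
  have : (2 * y) ^ 4 = 16 * (y ^ 2) ^ 2 := by ring
  rw [this, heq]
  ring

/-- the values `w_n = ψ_n(x,y)` form the sequence `normEDS (2y) c (κ c - (2y)⁴)` -/
lemma isLeg_psiVal_eq (hW : IsLeg W a b) {x y : K} (heq : y ^ 2 = x ^ 3 + a * x ^ 2 + b * x)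
    (n : ℤ) :
    psiVal W x y n =
      normEDS (2 * y) (legC a b x) (legKap a b x * legC a b x - (2 * y) ^ 4) n := by
  rw [psiVal_eq_normEDS, (isLeg_ψ₂_evalEval hW), (isLeg_Ψ₃_eval hW), (isLeg_preΨ₄_eval_eq hW) heq]

lemma isLeg_psiVal_zero (hW : IsLeg W a b) {x y : K} (heq : y ^ 2 = x ^ 3 + a * x ^ 2 + b * x) :
    psiVal W x y 0 = 0 := by
  rw [(isLeg_psiVal_eq hW) heq, normEDS_zero]

lemma isLeg_psiVal_one (hW : IsLeg W a b) {x y : K} (heq : y ^ 2 = x ^ 3 + a * x ^ 2 + b * x) :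
    psiVal W x y 1 = 1 := by
  rw [(isLeg_psiVal_eq hW) heq, normEDS_one]

lemma isLeg_psiVal_two (hW : IsLeg W a b) {x y : K} (heq : y ^ 2 = x ^ 3 + a * x ^ 2 + b * x) :
    psiVal W x y 2 = 2 * y := by
  rw [(isLeg_psiVal_eq hW) heq, normEDS_two]

lemma isLeg_psiVal_three (hW : IsLeg W a b) {x y : K}
    (heq : y ^ 2 = x ^ 3 + a * x ^ 2 + b * x) :
    psiVal W x y 3 = legC a b x := by
  rw [(isLeg_psiVal_eq hW) heq, normEDS_three]

/-- Somos-4 for the values of the division polynomials, with free index names -/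
lemma isLeg_psiVal_somos (hW : IsLeg W a b) {x y : K}
    (heq : y ^ 2 = x ^ 3 + a * x ^ 2 + b * x) (n i j k l : ℤ) (hi : i = n + 2) (hj : j = n + 1)
    (hk : k = n - 1) (hl : l = n - 2) :
    psiVal W x y i * psiVal W x y l =
      (2 * y) ^ 2 * psiVal W x y j * psiVal W x y k - legC a b x * psiVal W x y n ^ 2 := by
  subst hi hj hk hl
  simp only [(isLeg_psiVal_eq hW) heq]
  exact normEDS_somos4 _ _ _ n

/-- the sum identity for the values of the division polynomials, with free index names -/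
lemma isLeg_psiVal_sum (hW : IsLeg W a b) {x y : K}
    (heq : y ^ 2 = x ^ 3 + a * x ^ 2 + b * x) (n i j k l : ℤ) (hi : i = n + 2) (hj : j = n + 1)
    (hk : k = n - 1) (hl : l = n - 2) :
    psiVal W x y i * psiVal W x y k ^ 2 + psiVal W x y l * psiVal W x y j ^ 2 +
        (2 * y) ^ 2 * psiVal W x y n ^ 3 =
      legKap a b x * psiVal W x y j * psiVal W x y n * psiVal W x y k := by
  subst hi hj hk hl
  simp only [(isLeg_psiVal_eq hW) heq]
  exact normEDS_sum_identity _ _ _ n

section induction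

variable [DecidableEq K]

/-- the two claims of the multiplication theorem at level `k` -/
def GoodAt (W : WeierstrassCurve K) (x y : K) (h : W.toAffine.Nonsingular x y) (k : ℕ) : Prop :=
  (k • Point.some x y h = 0 ↔ psiVal W x y k = 0) ∧
  ∀ (x' y' : K) (h' : W.toAffine.Nonsingular x' y'), k • Point.some x y h = Point.some x' y' h' →
    (x - x') * psiVal W x y k ^ 2 = psiVal W x y ((k : ℤ) + 1) * psiVal W x y ((k : ℤ) - 1)

lemma goodAt_one (hW : IsLeg W a b) {x y : K} (h : W.toAffine.Nonsingular x y) :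
    GoodAt W x y h 1 := by
  have heq := hW.eq_of_nonsingular h
  refine ⟨?_, ?_⟩
  · rw [one_smul, Nat.cast_one, isLeg_psiVal_one hW heq]
    simp
  · intro x' y' h' e
    rw [one_smul] at e
    have hx : x = x' := by
      injection e
    subst hx
    rw [Nat.cast_one, sub_self, zero_mul, sub_self, isLeg_psiVal_zero hW heq, mul_zero]

lemma two_nsmul_of_y_ne_zero (hW : IsLeg W a b) (h2 : (2 : K) ≠ 0) {x y : K}
    (h : W.toAffine.Nonsingular x y) (hy : y ≠ 0) :
    ∃ w h', 2 • Point.some x y h =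
      Point.some (((3 * x ^ 2 + 2 * a * x + b) / (2 * y)) ^ 2 - a - 2 * x) w h' := by
  obtain ⟨w, h', e⟩ := hW.add_self_of_Y_ne_zero h2 h hy
  exact ⟨w, h', by rw [two_nsmul, e]⟩

lemma goodAt_two (hW : IsLeg W a b) (h2 : (2 : K) ≠ 0) {x y : K}
    (h : W.toAffine.Nonsingular x y) : GoodAt W x y h 2 := by
  have heq := hW.eq_of_nonsingular h
  have c2 : ((2 : ℕ) : ℤ) = 2 := rfl
  by_cases hy : y = 0
  · subst hy
    have e0 : 2 • Point.some x 0 h = 0 := by
      rw [two_nsmul]; exact hW.add_self_of_Y_eq_zero h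
    refine ⟨?_, ?_⟩
    · rw [c2, isLeg_psiVal_two hW heq, mul_zero]
      simp [e0]
    · intro x' y' h' e
      rw [e0] at e
      exact absurd e (by simp)
  · obtain ⟨w, h', e⟩ := two_nsmul_of_y_ne_zero hW h2 h hy
    refine ⟨?_, ?_⟩
    · rw [c2, isLeg_psiVal_two hW heq, e]
      have : 2 * y ≠ 0 := mul_ne_zero h2 hy
      simp [this]
    · intro x' y' h'' e'
      rw [e] at e'
      have hx : ((3 * x ^ 2 + 2 * a * x + b) / (2 * y)) ^ 2 - a - 2 * x = x' := by
        injection e'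
      subst hx
      have e1 : ((2 : ℕ) : ℤ) + 1 = 3 := rfl
      have e2 : ((2 : ℕ) : ℤ) - 1 = 1 := rfl
      rw [c2] at *
      rw [show (2 : ℤ) + 1 = 3 from rfl, show (2 : ℤ) - 1 = 1 from rfl,
        isLeg_psiVal_two hW heq, isLeg_psiVal_three hW heq, isLeg_psiVal_one hW heq, legC, mul_one]
      field_simp
      linear_combination (12 * x + 4 * a) * heq

/-- at a `2`-torsion point `Ψ₃` does not vanish -/
lemma legC_ne_zero_of_y_eq_zero (hW : IsLeg W a b) {x : K} (h : W.toAffine.Nonsingular x 0) :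
    legC a b x ≠ 0 := by
  have heq := hW.eq_of_nonsingular h
  have hns := (Affine.nonsingular_iff' (W := W.toAffine) x 0).mp h
  have hd : 3 * x ^ 2 + 2 * a * x + b ≠ 0 := by
    rcases hns.2 with h1 | h1
    · intro h0
      apply h1
      rw [hW.a₁, hW.a₂, hW.a₄]
      linear_combination -h0
    · exfalso
      apply h1
      rw [hW.a₁, hW.a₃]
      ring
  have : legC a b x = -(3 * x ^ 2 + 2 * a * x + b) ^ 2 := by
    rw [legC]
    linear_combination (-(12 * x + 4 * a)) * heq
  rw [this]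
  exact neg_ne_zero.mpr (pow_ne_zero 2 hd)

/-- the multiplication theorem at a `2`-torsion point -/
lemma goodAt_of_y_eq_zero (hW : IsLeg W a b) {x : K} (h : W.toAffine.Nonsingular x 0) (k : ℕ) :
    GoodAt W x 0 h k := by
  have heq := hW.eq_of_nonsingular h
  have hc := legC_ne_zero_of_y_eq_zero hW h
  have e0 : 2 • Point.some x 0 h = 0 := by
    rw [two_nsmul]; exact hW.add_self_of_Y_eq_zero h
  -- even indices
  have hev : ∀ j : ℤ, psiVal W x 0 (2 * j) = 0 := by
    intro j
    rw [isLeg_psiVal_eq hW heq, normEDS, if_pos (even_two_mul j), mul_zero, mul_zero]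
  -- odd indices
  have hodd : ∀ j : ℕ, psiVal W x 0 (2 * (j : ℤ) + 1) ≠ 0 := by
    intro j
    induction j with
    | zero =>
      rw [Nat.cast_zero, mul_zero, zero_add, isLeg_psiVal_one hW heq]
      exact one_ne_zero
    | succ j ih =>
      have so := isLeg_psiVal_somos hW heq (2 * (j : ℤ) + 1) (2 * ((j + 1 : ℕ) : ℤ) + 1)
        (2 * (j : ℤ) + 2) (2 * (j : ℤ)) (2 * (j : ℤ) - 1) (by push_cast; ring) (by ring)
        (by ring) (by ring)
      intro h0
      rw [h0, zero_mul, mul_zero, zero_pow two_ne_zero, zero_mul, zero_mul, zero_sub] at so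
      have : legC a b x * psiVal W x 0 (2 * (j : ℤ) + 1) ^ 2 ≠ 0 :=
        mul_ne_zero hc (pow_ne_zero 2 ih)
      exact this (neg_eq_zero.mp so.symm)
  rcases Nat.even_or_odd' k with ⟨j, rfl | rfl⟩
  · have ek : (2 * j) • Point.some x 0 h = 0 := by
      rw [mul_nsmul, e0, smul_zero]
    refine ⟨?_, ?_⟩
    · have : ((2 * j : ℕ) : ℤ) = 2 * (j : ℤ) := by push_cast; ring
      rw [this, hev]
      simp [ek]
    · intro x' y' h' e
      rw [ek] at e
      exact absurd e (by simp)
  · have ek : (2 * j + 1) • Point.some x 0 h = Point.some x 0 h := by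
      rw [succ_nsmul, mul_nsmul, e0, smul_zero, zero_add]
    have c : ((2 * j + 1 : ℕ) : ℤ) = 2 * (j : ℤ) + 1 := by push_cast; ring
    refine ⟨?_, ?_⟩
    · rw [c, ek]
      have := hodd j
      simp [this]
    · intro x' y' h' e
      rw [ek] at e
      have hx : x = x' := by
        injection e
      subst hx
      rw [c, sub_self, zero_mul, show 2 * (j : ℤ) + 1 - 1 = 2 * j by ring, hev, mul_zero]

/-- two points with the same abscissa are equal or opposite -/
lemma some_eq_or_eq_neg (hW : IsLeg W a b) {x y y' : K} (h : W.toAffine.Nonsingular x y)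
    (h' : W.toAffine.Nonsingular x y') :
    Point.some x y' h' = Point.some x y h ∨ Point.some x y' h' = -Point.some x y h := by
  have e := hW.eq_of_nonsingular h
  have e' := hW.eq_of_nonsingular h'
  have : (y' - y) * (y' + y) = 0 := by linear_combination e' - e
  rcases mul_eq_zero.mp this with h0 | h0
  · left
    have : y' = y := by linear_combination h0
    subst this
    rfl
  · right
    have : y' = -y := by linear_combination h0
    subst this
    obtain ⟨h'', e''⟩ := hW.neg_some h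
    rw [e'']

/-- the induction step of the multiplication theorem (away from the `2`-torsion) -/
theorem goodAt_step (hW : IsLeg W a b) (h2 : (2 : K) ≠ 0) {x y : K}
    (h : W.toAffine.Nonsingular x y) (hy : y ≠ 0) (m : ℕ)
    (g2 : GoodAt W x y h 2) (gm : GoodAt W x y h m) (gn : GoodAt W x y h (m + 1)) :
    GoodAt W x y h (m + 2) := by
  have heq := hW.eq_of_nonsingular h
  have hB : (2 * y) ≠ 0 := mul_ne_zero h2 hy
  have c1 : ((m + 1 : ℕ) : ℤ) = (m : ℤ) + 1 := by push_cast; ring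
  have c2 : ((m + 2 : ℕ) : ℤ) = (m : ℤ) + 2 := by push_cast; ring
  have i1 : (m : ℤ) + 1 + 1 = (m : ℤ) + 2 := by ring
  have i2 : (m : ℤ) + 1 - 1 = (m : ℤ) := by ring
  have i3 : (m : ℤ) + 2 + 1 = (m : ℤ) + 3 := by ring
  have i4 : (m : ℤ) + 2 - 1 = (m : ℤ) + 1 := by ring
  obtain ⟨gm_z, gm_x⟩ := gm
  obtain ⟨gn_z, gn_x⟩ := gn
  obtain ⟨g2_z, g2_x⟩ := g2
  simp only [c1, i1, i2] at gn_z gn_x
  have j2 : ((2 : ℕ) : ℤ) = 2 := rfl
  simp only [j2, show (2 : ℤ) + 1 = 3 from rfl, show (2 : ℤ) - 1 = 1 from rfl,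
    isLeg_psiVal_two hW heq, isLeg_psiVal_three hW heq, isLeg_psiVal_one hW heq, mul_one]
    at g2_z g2_x
  unfold GoodAt
  simp only [c2, i3, i4]
  -- the identities
  have S_m := isLeg_psiVal_sum hW heq (m : ℤ) ((m : ℤ) + 2) ((m : ℤ) + 1) ((m : ℤ) - 1)
    ((m : ℤ) - 2) rfl rfl rfl rfl
  have S_n := isLeg_psiVal_sum hW heq ((m : ℤ) + 1) ((m : ℤ) + 3) ((m : ℤ) + 2) (m : ℤ)
    ((m : ℤ) - 1) (by ring) (by ring) (by ring) (by ring)
  have So_p := isLeg_psiVal_somos hW heq ((m : ℤ) + 2) ((m : ℤ) + 4) ((m : ℤ) + 3) ((m : ℤ) + 1)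
    (m : ℤ) (by ring) (by ring) (by ring) (by ring)
  set P := Point.some x y h with hP
  set wm2 := psiVal W x y ((m : ℤ) - 2) with hwm2
  set wm1 := psiVal W x y ((m : ℤ) - 1) with hwm1
  set wm := psiVal W x y (m : ℤ) with hwm
  set wn := psiVal W x y ((m : ℤ) + 1) with hwn
  set wp := psiVal W x y ((m : ℤ) + 2) with hwp
  set wpp := psiVal W x y ((m : ℤ) + 3) with hwpp
  set wp4 := psiVal W x y ((m : ℤ) + 4) with hwp4
  have hsucc : (m + 2) • P = (m + 1) • P + P := succ_nsmul P (m + 1)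
  have hpred : (m + 1) • P = m • P + P := succ_nsmul P m
  have hP0 : P ≠ 0 := by simp [hP]
  have h2P : 2 • P ≠ 0 := fun e => hB (g2_z.mp e)
  by_cases hQ0 : (m + 1) • P = 0
  · -- Case A
    have hwn0 : wn = 0 := gn_z.mp hQ0
    have hmP : m • P = -P := by
      rw [hQ0] at hpred
      exact (neg_eq_of_add_eq_zero_left hpred.symm).symm
    have hwm0 : wm ≠ 0 := by
      intro h0
      have := gm_z.mpr h0
      rw [hmP, neg_eq_zero] at this
      exact hP0 this
    have hpP : (m + 2) • P = P := by rw [hsucc, hQ0, zero_add]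
    have hwp0 : wp ≠ 0 := by
      intro h0
      rw [h0, hwn0] at S_m
      have : (2 * y) ^ 2 * wm ^ 3 = 0 := by linear_combination S_m
      exact (mul_ne_zero (pow_ne_zero 2 hB) (pow_ne_zero 3 hwm0)) this
    refine ⟨?_, ?_⟩
    · rw [hpP]
      simp [hP0, hwp0]
    · intro x' y' h' e
      rw [hpP, hP] at e
      have hx : x = x' := by
        injection e
      subst hx
      rw [hwn0, sub_self, zero_mul, mul_zero]
  · -- Case B
    have hwn0 : wn ≠ 0 := fun h0 => hQ0 (gn_z.mpr h0)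
    rcases hQ : (m + 1) • P with _ | ⟨xn, yn, hn⟩
    · exact absurd hQ hQ0
    have E1 := gn_x xn yn hn hQ
    by_cases hx : xn = x
    · -- Case B1
      have hx' : x = xn := hx.symm
      subst hx'
      rw [sub_self, zero_mul] at E1
      rcases some_eq_or_eq_neg hW h hn with hQP | hQP
      · -- Q = P
        rw [← hP] at hQP
        have hmP : m • P = 0 := by
          rw [hQ, hQP] at hpred
          have : m • P + P = 0 + P := by rw [zero_add]; exact hpred.symm
          exact add_right_cancel this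
        have hwm0 : wm = 0 := gm_z.mp hmP
        have hpP : (m + 2) • P = 2 • P := by rw [hsucc, hQ, hQP, two_nsmul]
        have hwp0 : wp ≠ 0 := by
          intro h0
          rw [h0, hwm0] at S_n
          have : (2 * y) ^ 2 * wn ^ 3 = 0 := by linear_combination S_n
          exact (mul_ne_zero (pow_ne_zero 2 hB) (pow_ne_zero 3 hwn0)) this
        refine ⟨?_, ?_⟩
        · rw [hpP]
          simp [h2P, hwp0]
        · intro x' y' h' e
          rw [hpP] at e
          have E2 := g2_x x' y' h' e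
          rw [hwm0, mul_zero] at So_p
          have : (2 * y) ^ 2 * ((x - x') * wp ^ 2 - wpp * wn) = 0 := by
            linear_combination wp ^ 2 * E2 + So_p
          have := (mul_eq_zero.mp this).resolve_left (pow_ne_zero 2 hB)
          linear_combination this
      · -- Q = -P
        rw [← hP] at hQP
        have hpP : (m + 2) • P = 0 := by rw [hsucc, hQ, hQP, neg_add_cancel]
        have hmP : m • P = -(2 • P) := by
          rw [hQ, hQP] at hpred
          rw [two_nsmul, neg_add]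
          exact eq_add_neg_of_add_eq hpred.symm
        have hwm0 : wm ≠ 0 := by
          intro h0
          have := gm_z.mpr h0
          rw [hmP, neg_eq_zero] at this
          exact h2P this
        have hwp0 : wp = 0 := by
          rcases mul_eq_zero.mp E1.symm with h0 | h0
          · exact h0
          · exact absurd h0 hwm0
        refine ⟨?_, ?_⟩
        · rw [hpP]
          simp [hwp0]
        · intro x' y' h' e
          rw [hpP] at e
          exact absurd e (by simp)
    · -- Case B2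
      obtain ⟨z₁, w₁, h₁', z₂, w₂, h₂', e₁, e₂, es, ep⟩ := hW.add_sub_of_X_ne hn h hx
      have hmP : m • P = Point.some z₂ w₂ h₂' := by
        rw [← e₂, ← hP, ← hQ, hpred, add_sub_cancel_right]
      have hpP : (m + 2) • P = Point.some z₁ w₁ h₁' := by
        rw [hsucc, hQ, hP, e₁]
      have hwm0 : wm ≠ 0 := by
        intro h0
        have := gm_z.mpr h0
        rw [hmP] at this
        exact absurd this (by simp)
      have E2 := gm_x z₂ w₂ h₂' hmP
      have hxn : x - xn ≠ 0 := sub_ne_zero.mpr (Ne.symm hx)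
      have hxn' : xn - x ≠ 0 := sub_ne_zero.mpr hx
      have hwpwm : wp * wm ≠ 0 := by
        rw [← E1]
        exact mul_ne_zero hxn (pow_ne_zero 2 hwn0)
      have hwp0 : wp ≠ 0 := left_ne_zero_of_mul hwpwm
      refine ⟨?_, ?_⟩
      · rw [hpP]
        simp [hwp0]
      · intro x' y' h' e
        rw [hpP] at e
        have hz : z₁ = x' := by
          injection e
        subst hz
        have hB2 : (2 * y) ^ 2 = 4 * (x ^ 3 + a * x ^ 2 + b * x) := by
          rw [mul_pow, heq]; norm_num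
        rw [hB2] at S_n
        have hxn_eq : xn = x - wp * wm / wn ^ 2 := by
          field_simp
          linear_combination -E1
        have hz2 : z₂ = x - wn * wm1 / wm ^ 2 := by
          field_simp
          linear_combination -E2
        have hwpp_eq : wpp = (legKap a b x * wp * wn * wm - wm1 * wp ^ 2 -
            4 * (x ^ 3 + a * x ^ 2 + b * x) * wn ^ 3) / wm ^ 2 := by
          field_simp
          linear_combination S_n
        have hz1 : z₁ = 2 * ((xn + x) * (xn * x + b) + 2 * a * xn * x) / (xn - x) ^ 2 - z₂ := by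
          linear_combination es
        have hd : xn - x = -(wp * wm / wn ^ 2) := by rw [hxn_eq]; ring
        rw [hz1, hd, hz2, hwpp_eq, hxn_eq, legKap]
        field_simp
        ring

lemma goodAt_zero (hW : IsLeg W a b) {x y : K} (h : W.toAffine.Nonsingular x y) :
    GoodAt W x y h 0 := by
  have heq := hW.eq_of_nonsingular h
  refine ⟨?_, ?_⟩
  · rw [zero_smul, Nat.cast_zero, isLeg_psiVal_zero hW heq]
    exact ⟨fun _ => rfl, fun _ => rfl⟩
  · intro x' y' h' e
    rw [zero_smul] at e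
    exact absurd e.symm (by simp)

/-- **The multiplication theorem** for the division polynomials `ψ_n` on `y² = x³ + a x² + b x`. -/
theorem goodAt_all (hW : IsLeg W a b) (h2 : (2 : K) ≠ 0) {x y : K}
    (h : W.toAffine.Nonsingular x y) (k : ℕ) : GoodAt W x y h k := by
  by_cases hy : y = 0
  · subst hy
    exact goodAt_of_y_eq_zero hW h k
  · have key : ∀ m : ℕ, GoodAt W x y h m ∧ GoodAt W x y h (m + 1) := by
      intro m
      induction m with
      | zero => exact ⟨goodAt_zero hW h, goodAt_one hW h⟩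
      | succ m ih => exact ⟨ih.2, goodAt_step hW h2 h hy m (goodAt_two hW h2 h) ih.1 ih.2⟩
    exact (key k).1

/-- `n • P = 0 ↔ ψ_n(P) = 0` -/
theorem nsmul_eq_zero_iff_psiVal (hW : IsLeg W a b) (h2 : (2 : K) ≠ 0) {x y : K}
    (h : W.toAffine.Nonsingular x y) (n : ℕ) :
    n • Point.some x y h = 0 ↔ psiVal W x y n = 0 :=
  (goodAt_all hW h2 h n).1

/-- `x(n • P) = x - ψ_{n+1} ψ_{n-1} / ψ_n²`, in division-free form -/
theorem x_nsmul_psiVal (hW : IsLeg W a b) (h2 : (2 : K) ≠ 0) {x y : K}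
    (h : W.toAffine.Nonsingular x y) (n : ℕ) {x' y' : K} {h' : W.toAffine.Nonsingular x' y'}
    (e : n • Point.some x y h = Point.some x' y' h') :
    (x - x') * psiVal W x y n ^ 2 = psiVal W x y ((n : ℤ) + 1) * psiVal W x y ((n : ℤ) - 1) :=
  (goodAt_all hW h2 h n).2 x' y' h' e

end induction

/-- the value of `ψ_n` in terms of the univariate polynomial `preΨ_n` -/
lemma isLeg_psiVal_eq_preΨ (hW : IsLeg W a b) {x y : K}
    (heq : y ^ 2 = x ^ 3 + a * x ^ 2 + b * x) (n : ℤ) :
    psiVal W x y n = (W.preΨ n).eval x * if Even n then 2 * y else 1 := by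
  rw [psiVal_eq_normEDS, normEDS, isLeg_ψ₂_evalEval hW, WeierstrassCurve.preΨ,
    ← coe_evalRingHom, map_preNormEDS]
  simp only [coe_evalRingHom, eval_pow, isLeg_Ψ₂Sq_eval hW]
  have : (2 * y) ^ 4 = (4 * (x ^ 3 + a * x ^ 2 + b * x)) ^ 2 := by
    rw [← heq]; ring
  rw [this]

lemma isLeg_psiVal_odd (hW : IsLeg W a b) {x y : K}
    (heq : y ^ 2 = x ^ 3 + a * x ^ 2 + b * x) {n : ℕ} (hn : Odd n) :
    psiVal W x y n = (W.preΨ' n).eval x := by
  have : ¬ Even (n : ℤ) := by
    rw [Int.not_even_iff_odd]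
    exact_mod_cast hn
  rw [isLeg_psiVal_eq_preΨ hW heq, if_neg this, mul_one, WeierstrassCurve.preΨ_ofNat]

/-- for odd `n`: `n • P = 0` iff `x(P)` is a root of the `n`-division polynomial `preΨ'_n` -/
theorem nsmul_eq_zero_iff_preΨ' [DecidableEq K] (hW : IsLeg W a b) (h2 : (2 : K) ≠ 0) {x y : K}
    (h : W.toAffine.Nonsingular x y) {n : ℕ} (hn : Odd n) :
    n • Point.some x y h = 0 ↔ (W.preΨ' n).eval x = 0 := by
  rw [nsmul_eq_zero_iff_psiVal hW h2 h n, isLeg_psiVal_odd hW (hW.eq_of_nonsingular h) hn]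

end Fermat.Agent.S13Lib
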