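/-
S13, package (A′), part 3: the roots of the division polynomial `Ψ_p = preΨ'_p` (p odd) of
`y² = x³ + a x² + b x` over an algebraically closed field of characteristic `0` are exactly the
abscissas of the nonzero `p`-torsion points, each simple:
`Ψ_p² = p² ∏_{T ∈ E[p] ∖ 0} (X - x(T))`.
Consequence: for a valuation `v` with `a, b` integral, `∑_{T ≠ 0} (- ord x(T)) ≤ 2 ord p`.
-/
import Fermat.Agent.Lib.S13.DivPoly.Mul
import Fermat.Agent.Lib.S13.Torsion.Count
import Fermat.Agent.Lib.S13.AtP2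

set_option autoImplicit false

open WeierstrassCurve WeierstrassCurve.Affine Polynomial

namespace Fermat.Agent.S13Lib

open Fermat.Agent.S05Lib

section roots

variable {K : Type*} [Field K] [DecidableEq K] {W : WeierstrassCurve K} {a b : K}

/-- a nonzero odd-torsion point has nonzero abscissa -/
lemma xc_ne_zero_of_odd_torsion (hW : IsLeg W a b) {p : ℕ} (hp : Odd p)
    {T : W.toAffine.Point} (hT : p • T = 0) (hT0 : T ≠ 0) : xc T ≠ 0 := by
  rcases T with _ | ⟨x, y, h⟩
  · exact absurd rfl hT0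
  · intro hx
    change x = 0 at hx
    subst hx
    have heq := hW.eq_of_nonsingular h
    have hy : y = 0 := by
      have : y ^ 2 = 0 := by rw [heq]; ring
      exact pow_eq_zero_iff two_ne_zero |>.mp this
    subst hy
    have e2 : 2 • Point.some 0 0 h = 0 := by
      rw [two_nsmul]; exact hW.add_self_of_Y_eq_zero h
    obtain ⟨k, rfl⟩ := hp
    rw [succ_nsmul, mul_nsmul, e2, smul_zero, zero_add] at hT
    exact hT0 hT

/-- a nonzero odd-torsion point differs from its opposite -/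
lemma ne_neg_of_odd_torsion {p : ℕ} (hp : Odd p)
    {T : W.toAffine.Point} (hT : p • T = 0) (hT0 : T ≠ 0) : -T ≠ T := by
  intro h
  have e2 : 2 • T = 0 := by
    rw [two_nsmul]
    nth_rewrite 1 [← h]
    exact neg_add_cancel T
  obtain ⟨k, rfl⟩ := hp
  rw [succ_nsmul, mul_nsmul, e2, smul_zero, zero_add] at hT
  exact hT0 hT

/-- points with the same abscissa are equal or opposite -/
lemma eq_or_eq_neg_of_xc_eq (hW : IsLeg W a b) {T T' : W.toAffine.Point} (hT : T ≠ 0)
    (hT' : T' ≠ 0) (h : xc T' = xc T) : T' = T ∨ T' = -T := by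
  rcases T with _ | ⟨x, y, hxy⟩
  · exact absurd rfl hT
  rcases T' with _ | ⟨x', y', hxy'⟩
  · exact absurd rfl hT'
  change x' = x at h
  subst h
  exact some_eq_or_eq_neg hW hxy hxy'

/-- the abscissa of a nonzero odd-torsion point is a root of the division polynomial -/
lemma preΨ'_eval_xc_eq_zero (hW : IsLeg W a b) (h2 : (2 : K) ≠ 0) {p : ℕ} (hp : Odd p)
    {T : W.toAffine.Point} (hT : p • T = 0) (hT0 : T ≠ 0) : (W.preΨ' p).eval (xc T) = 0 := by
  rcases T with _ | ⟨x, y, h⟩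
  · exact absurd rfl hT0
  · exact (nsmul_eq_zero_iff_preΨ' hW h2 h hp).mp hT

end roots

section main

variable {K : Type*} [Field K] [DecidableEq K] [IsAlgClosed K] [CharZero K]
  {W : WeierstrassCurve K} {a b : K}

/-- **Factorisation of the division polynomial**: for odd `p`,
`Ψ_p² = p² ∏_{T ∈ E[p] ∖ 0} (X - x(T))`. -/
theorem preΨ'_sq_eq_prod (hW : IsLeg W a b) (hb : b ≠ 0) (hab : a ^ 2 - 4 * b ≠ 0) {p : ℕ}
    (hp : Odd p) (Vp : Finset W.toAffine.Point) (hVp : ∀ T, T ∈ Vp ↔ p • T = 0) :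
    (W.preΨ' p) ^ 2 = C ((p : K) ^ 2) * ∏ T ∈ Vp.erase 0, (X - C (xc T)) := by
  have h2 : (2 : K) ≠ 0 := two_ne_zero
  have hp0 : 0 < p := hp.pos
  have hpK : (p : K) ≠ 0 := Nat.cast_ne_zero.mpr hp0.ne'
  have hne : ¬ Even p := Nat.not_even_iff_odd.mpr hp
  set Ψ := W.preΨ' p with hΨ
  have hΨ0 : Ψ ≠ 0 := W.preΨ'_ne_zero hpK
  have hdeg : Ψ.natDegree = (p ^ 2 - 1) / 2 := by
    rw [hΨ, W.natDegree_preΨ' hpK, if_neg hne]
  have hlc : Ψ.leadingCoeff = p := by
    rw [hΨ, W.leadingCoeff_preΨ' hpK, if_neg hne]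
  -- the cardinality of `Vp`
  have hcard : Vp.card = p ^ 2 := by
    rw [← Torsion.natCard_torsion hW hb hab hp0,
      ← Nat.card_congr (Equiv.subtypeEquivRight hVp), Nat.card_eq_fintype_card,
      Fintype.card_coe]
  have h0V : (0 : W.toAffine.Point) ∈ Vp := (hVp 0).mpr (smul_zero p)
  set S := Vp.erase 0 with hS
  have hScard : S.card = p ^ 2 - 1 := by
    rw [hS, Finset.card_erase_of_mem h0V, hcard]
  have hSmem : ∀ T ∈ S, p • T = 0 ∧ T ≠ 0 := fun T hT =>
    ⟨(hVp T).mp (Finset.mem_of_mem_erase hT), Finset.ne_of_mem_erase hT⟩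
  have hSneg : ∀ T ∈ S, -T ∈ S := by
    intro T hT
    obtain ⟨h1, h2'⟩ := hSmem T hT
    refine Finset.mem_erase.mpr ⟨neg_ne_zero.mpr h2', (hVp _).mpr ?_⟩
    rw [smul_neg, h1, neg_zero]
  -- fibres of `xc` on `S` have two elements
  have hfib : ∀ T ∈ S, (S.filter fun T' => xc T' = xc T) = {T, -T} := by
    intro T hT
    obtain ⟨h1, h2'⟩ := hSmem T hT
    ext T'
    simp only [Finset.mem_filter, Finset.mem_insert, Finset.mem_singleton]
    constructor
    · rintro ⟨hT', hx⟩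
      exact eq_or_eq_neg_of_xc_eq hW h2' (hSmem T' hT').2 hx
    · rintro (rfl | rfl)
      · exact ⟨hT, rfl⟩
      · exact ⟨hSneg T hT, xc_neg hW T⟩
  have hfibcard : ∀ s ∈ S.image xc, (S.filter fun T' => xc T' = s).card = 2 := by
    intro s hs
    obtain ⟨T, hT, rfl⟩ := Finset.mem_image.mp hs
    rw [hfib T hT]
    obtain ⟨h1, h2'⟩ := hSmem T hT
    exact Finset.card_pair (ne_neg_of_odd_torsion hp h1 h2').symm
  set R := S.image xc with hR
  have hRcard : R.card * 2 = p ^ 2 - 1 := by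
    rw [← hScard, Finset.card_eq_sum_card_image xc S, Finset.sum_congr rfl hfibcard,
      Finset.sum_const, smul_eq_mul]
  -- all elements of `R` are roots
  have hRroots : R.val ≤ Ψ.roots := by
    rw [Finset.val_le_iff_val_subset]
    intro s hs
    obtain ⟨T, hT, rfl⟩ := Finset.mem_image.mp hs
    obtain ⟨h1, h2'⟩ := hSmem T hT
    exact (mem_roots hΨ0).mpr (preΨ'_eval_xc_eq_zero hW h2 hp h1 h2')
  have hRdeg : R.card = Ψ.natDegree := by
    rw [hdeg, ← hRcard, Nat.mul_div_cancel _ two_pos]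
  have hroots : Ψ.roots = R.val := by
    symm
    apply Multiset.eq_of_le_of_card_le hRroots
    rw [Finset.card_val, hRdeg]
    exact card_roots' Ψ
  have hfact : Ψ = C (p : K) * ∏ s ∈ R, (X - C s) := by
    have hc : Multiset.card Ψ.roots = Ψ.natDegree := by rw [hroots, Finset.card_val, hRdeg]
    have := C_leadingCoeff_mul_prod_multiset_X_sub_C hc
    rw [hlc, hroots] at this
    rw [← this]
    rfl
  -- square and regroup
  have hprod : ∏ T ∈ S, (X - C (xc T)) = ∏ s ∈ R, (X - C s : K[X]) ^ 2 := by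
    rw [Finset.prod_comp (fun s => (X - C s : K[X])) xc]
    exact Finset.prod_congr rfl (fun s hs => by rw [hfibcard s hs])
  rw [hprod, Finset.prod_pow, hfact]
  rw [mul_pow, C_pow]

end main

section valuation

variable {K : Type*} [Field K] (v : QVal K)

/-- the subring of `v`-integral elements -/
def integerSubring : Subring K where
  carrier := {z | v.Ge z 0}
  zero_mem' := Or.inl rfl
  one_mem' := v.is_one.ge
  add_mem' := fun hx hy => hx.add hy
  mul_mem' := fun hx hy => by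
    have := hx.mul hy
    rwa [add_zero] at this
  neg_mem' := fun hx => hx.neg

lemma mem_integerSubring {z : K} : z ∈ integerSubring v ↔ v.Ge z 0 := Iff.rfl

variable {v}

/-- the constant coefficient of a division polynomial of an integral curve is integral -/
lemma ge_preΨ'_eval_zero {W : WeierstrassCurve K} {a b : K} (hW : IsLeg W a b)
    (ha : v.Ge a 0) (hb : v.Ge b 0) (n : ℕ) : v.Ge ((W.preΨ' n).eval 0) 0 := by
  let W₀ : WeierstrassCurve (integerSubring v) := ⟨0, ⟨a, ha⟩, 0, ⟨b, hb⟩, 0⟩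
  have hmap : W = W₀.map (integerSubring v).subtype := by
    ext
    · simp [W₀, hW.a₁]
    · simp [W₀, hW.a₂]
    · simp [W₀, hW.a₃]
    · simp [W₀, hW.a₄]
    · simp [W₀, hW.a₆]
  rw [hmap, WeierstrassCurve.map_preΨ', eval_zero_map]
  exact ((W₀.preΨ' n).eval 0).2

variable [DecidableEq K] [IsAlgClosed K] [CharZero K] {W : WeierstrassCurve K} {a b : K}

/-- **The depth bound**: for an integral curve `y² = x³ + a x² + b x` and odd `p`,
`∑_{T ∈ E[p] ∖ 0} (- ord x(T)) ≤ 2 ord p`. -/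
theorem sum_depth_le_two_ord (hW : IsLeg W a b) (hb0 : b ≠ 0) (hab : a ^ 2 - 4 * b ≠ 0)
    (ha : v.Ge a 0) (hb : v.Ge b 0) {p : ℕ} (hp : Odd p) (Vp : Finset W.toAffine.Point)
    (hVp : ∀ T, T ∈ Vp ↔ p • T = 0) :
    ∑ T ∈ Vp.erase 0, (-(v.ord (xc T))) ≤ 2 * v.ord (p : K) := by
  have hp0 : 0 < p := hp.pos
  have hpK : (p : K) ≠ 0 := Nat.cast_ne_zero.mpr hp0.ne'
  have key := congrArg (eval 0) (preΨ'_sq_eq_prod hW hb0 hab hp Vp hVp)
  rw [eval_pow, eval_mul, eval_C, eval_prod] at key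
  simp only [eval_sub, eval_X, eval_C, zero_sub] at key
  have hne : ∀ T ∈ Vp.erase 0, -(xc T) ≠ 0 := by
    intro T hT
    exact neg_ne_zero.mpr (xc_ne_zero_of_odd_torsion hW hp
      ((hVp T).mp (Finset.mem_of_mem_erase hT)) (Finset.ne_of_mem_erase hT))
  have hprod0 : ∏ T ∈ Vp.erase 0, -(xc T) ≠ 0 := Finset.prod_ne_zero_iff.mpr hne
  have hΨ0 : (W.preΨ' p).eval 0 ≠ 0 := by
    intro h0
    rw [h0, zero_pow two_ne_zero] at key
    exact (mul_ne_zero (pow_ne_zero 2 hpK) hprod0) key.symm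
  have hge : 0 ≤ v.ord ((W.preΨ' p).eval 0) :=
    (ge_preΨ'_eval_zero hW ha hb p).resolve_left hΨ0
  have hord := congrArg v.ord key
  rw [v.ord_pow hΨ0, v.ord_mul' (pow_ne_zero 2 hpK) hprod0, v.ord_pow hpK,
    ord_prod _ _ hne] at hord
  simp only [v.ord_neg] at hord
  rw [Finset.sum_neg_distrib]
  push_cast at hord
  linarith

end valuation

end Fermat.Agent.S13Lib
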