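/-
S13, package (A′), part 4: the depth bound `DepthBoundAt` (input of package (C), `AtP.lean`) for
the Legendre models `legQ e r`, from the factorisation of the division polynomial.
-/
import Fermat.Agent.Lib.S13.DivPoly.Roots
import Fermat.Agent.Lib.S13.AtP

set_option autoImplicit false

open WeierstrassCurve WeierstrassCurve.Affine

namespace Fermat.Agent.S13Lib

open Fermat.Agent.S05Lib

local notation "Qb" => AlgebraicClosure ℚ

/-- `DepthBoundAt` for the Legendre model `legQ e r`, at any valuation for which `ord q = 1`,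
`q` odd. -/
theorem depthBoundAt_legQ_of_divPoly (e r : ℤ) (he : e ≠ 0) (hr : r ≠ 0) (her : e ≠ r)
    {A : ValuationSubring Qb} {q : ℕ} {v : QVal Qb} (hv : QValFor A q v) (hq : Odd q)
    (hq1 : v.ord ((q : ℕ) : Qb) = 1) : DepthBoundAt v e r q := by
  classical
  intro hfin _
  have hW := isLeg_legQ e r
  obtain ⟨ha, hb⟩ := legQ_integral hv e r
  have hb0 : ((e : Qb) * r) ≠ 0 :=
    mul_ne_zero (Int.cast_ne_zero.mpr he) (Int.cast_ne_zero.mpr hr)
  have hab : (-((e : Qb) + r)) ^ 2 - 4 * ((e : Qb) * r) ≠ 0 := by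
    have : (-((e : Qb) + r)) ^ 2 - 4 * ((e : Qb) * r) = ((e : Qb) - r) ^ 2 := by ring
    rw [this]
    apply pow_ne_zero
    rw [sub_ne_zero]
    exact_mod_cast her
  have key := sum_depth_le_two_ord hW hb0 hab ha hb hq hfin.toFinset
    (fun T => by rw [Set.Finite.mem_toFinset]; rfl)
  rw [hq1] at key
  convert key using 2
  norm_num

end Fermat.Agent.S13Lib
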